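import Mathlib.Algebra.Polynomial.BigOperators
import Mathlib.Algebra.Polynomial.AlgebraMap
import Mathlib.Analysis.SpecificLimits.Normed
import Mathlib.NumberTheory.Real.Irrational
import Mathlib.Tactic

/-!
# Tschakaloff's theorem

The series `g y = ∑ r ^ n y ^ n q ^ (-n (n - 1) / 2)` has `g y = 1 + r y g (y / q)`: `g 1 = a ∈ ℚ`
makes every `g (q ^ (-j))` rational of denominator `D t ^ j`, `r = t / s`. The integral operator
`∏ i < m, (q ^ i E - 1)` removes the first `m` terms, and leaves an integer that is not zero and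
tends to zero.
-/

set_option autoImplicit false

noncomputable section

open Finset Filter Polynomial
open scoped Topology

namespace FA.Tschakaloff

/-- The coefficients. -/
def coef (r q : ℝ) (n : ℕ) : ℝ := r ^ n / q ^ n.choose 2

/-- The series. -/
def series (r q y : ℝ) : ℝ := ∑' n, coef r q n * y ^ n

theorem coef_succ {r q : ℝ} (n : ℕ) : coef r q (n + 1) = coef r q n * (r / q ^ n) := by
  rw [coef, coef, Nat.choose_succ_succ, Nat.choose_one_right, pow_succ, pow_add, div_mul_div_comm,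
    mul_comm (q ^ n)]

theorem summable_series (r : ℝ) {q : ℝ} (hq : 1 < |q|) (y : ℝ) :
    Summable fun n => coef r q n * y ^ n := by
  refine summable_of_ratio_norm_eventually_le (show (1 / 2 : ℝ) < 1 by norm_num) ?_
  filter_upwards [(tendsto_pow_atTop_atTop_of_one_lt hq).eventually_ge_atTop (2 * |r * y|)]
    with n hn
  have h0 : (0 : ℝ) < |q| ^ n := pow_pos (zero_lt_one.trans hq) n
  rw [coef_succ, pow_succ, show coef r q n * (r / q ^ n) * (y ^ n * y) =
    (r * y / q ^ n) * (coef r q n * y ^ n) by ring, norm_mul]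
  refine mul_le_mul_of_nonneg_right ?_ (norm_nonneg _)
  rw [Real.norm_eq_abs, abs_div, abs_pow, div_le_iff₀ h0]
  linarith

theorem series_eq (r : ℝ) {q : ℝ} (hq : 1 < |q|) (y : ℝ) :
    series r q y = 1 + r * y * series r q (y / q) := by
  rw [series, (summable_series r hq y).tsum_eq_zero_add, series, ← tsum_mul_left]
  congr 1
  · simp [coef]
  · refine tsum_congr fun n => ?_
    rw [coef_succ, div_pow, pow_succ]
    ring

/-- The operator `∏ i < m, (q ^ i E - 1)`. -/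
def diffOp (q : ℤ) (m : ℕ) : ℤ[X] := ∏ i ∈ range m, (C (q ^ i) * X - 1)

theorem natDegree_diffOp_le (q : ℤ) (m : ℕ) : (diffOp q m).natDegree ≤ m := by
  refine (natDegree_prod_le _ _).trans ((sum_le_card_nsmul _ _ 1 fun i _ => ?_).trans (by simp))
  exact (natDegree_sub_le _ _).trans (by simpa using natDegree_C_mul_X_pow_le (q ^ i) 1)

theorem aeval_diffOp (q : ℤ) (m : ℕ) (x : ℝ) :
    aeval x (diffOp q m) = ∏ i ∈ range m, ((q : ℝ) ^ i * x - 1) := by
  simp [diffOp]

theorem prod_lower : ∀ m : ℕ,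
    1 / 4 + (1 / 2 : ℝ) ^ (m + 2) ≤ ∏ e ∈ range (m + 1), (1 - (1 / 2 : ℝ) ^ (e + 1))
  | 0 => by norm_num
  | m + 1 => by
    rw [prod_range_succ]
    have hx : (1 / 2 : ℝ) ^ (m + 2) ≤ 1 / 4 :=
      (pow_le_pow_of_le_one (by norm_num) (by norm_num) (Nat.le_add_left 2 m)).trans (by norm_num)
    have hx0 : (0 : ℝ) < (1 / 2 : ℝ) ^ (m + 2) := by positivity
    refine le_trans ?_ (mul_le_mul_of_nonneg_right (prod_lower m) (by linarith))
    rw [pow_succ _ (m + 2)]
    nlinarith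

theorem prod_half_ge (m : ℕ) : 1 / 4 ≤ ∏ e ∈ range m, (1 - (1 / 2 : ℝ) ^ (e + 1)) := by
  rcases m with - | m
  · norm_num
  · exact le_trans (le_add_of_nonneg_right (by positivity)) (prod_lower m)

theorem prod_bounds (m : ℕ) {x : ℕ → ℝ} (hx : ∀ e < m, |x e| ≤ (1 / 2) ^ (e + 1)) :
    1 / 4 ≤ |∏ e ∈ range m, (x e - 1)| ∧ |∏ e ∈ range m, (x e - 1)| ≤ 4 := by
  have hh : ∀ e : ℕ, (1 / 2 : ℝ) ^ (e + 1) < 1 := fun e =>
    pow_lt_one₀ (by norm_num) (by norm_num) e.succ_ne_zero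
  rw [abs_prod]
  refine ⟨(prod_half_ge m).trans (prod_le_prod (fun e _ => by linarith [hh e]) fun e he => ?_),
    le_trans (prod_le_prod (g := fun e => (1 - (1 / 2 : ℝ) ^ (e + 1))⁻¹) (fun e _ => abs_nonneg _)
      fun e he => ?_) ?_⟩
  · have := hx e (mem_range.1 he)
    have := abs_sub_abs_le_abs_sub 1 (x e)
    rw [abs_one, abs_sub_comm] at this
    linarith
  · have h := hx e (mem_range.1 he)
    rw [inv_eq_one_div, le_div_iff₀ (by linarith [hh e])]
    have h' := (abs_sub (x e) 1).trans (add_le_add h (le_of_eq abs_one))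
    nlinarith [hh e, abs_nonneg (x e - 1), pow_nonneg (show (0 : ℝ) ≤ 1 / 2 by norm_num) (e + 1)]
  · rw [prod_inv_distrib, inv_le_comm₀ (lt_of_lt_of_le (by norm_num) (prod_half_ge m)) four_pos]
    exact le_trans (by norm_num) (prod_half_ge m)

/-- The operator applied to the values at `q ^ (-j)`. -/
theorem sum_diffOp_series (r : ℝ) {q : ℤ} (hq : 1 < |(q : ℝ)|) (m : ℕ) :
    ∑ j ∈ range (m + 1), ((diffOp q m).coeff j : ℝ) * series r q (((q : ℝ)⁻¹) ^ j) =
      ∑' l, coef r q (m + l) * ∏ i ∈ range m, (((q : ℝ)⁻¹) ^ (l + m - i) - 1) := by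
  have hq0 : (q : ℝ) ≠ 0 := fun h => by rw [h, abs_zero] at hq; linarith
  simp only [series, ← tsum_mul_left]
  rw [← Summable.tsum_finsetSum fun j _ => (summable_series r hq _).mul_left _]
  have e : ∀ n, ∑ j ∈ range (m + 1), ((diffOp q m).coeff j : ℝ) *
      (coef r q n * (((q : ℝ)⁻¹) ^ j) ^ n) =
      coef r q n * ∏ i ∈ range m, ((q : ℝ) ^ i * ((q : ℝ)⁻¹) ^ n - 1) := fun n => by
    rw [← aeval_diffOp, aeval_eq_sum_range' (Nat.lt_succ_of_le (natDegree_diffOp_le q m)), mul_sum]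
    refine sum_congr rfl fun j _ => ?_
    rw [zsmul_eq_mul, ← pow_mul, ← pow_mul, mul_comm j n]
    ring
  rw [tsum_congr e]
  have hs : Summable fun n => coef r q n * ∏ i ∈ range m, ((q : ℝ) ^ i * ((q : ℝ)⁻¹) ^ n - 1) :=
    (summable_sum fun j _ => (summable_series r hq _).mul_left _).congr e
  rw [← hs.sum_add_tsum_nat_add m, sum_eq_zero fun n hn => ?_, zero_add]
  · refine tsum_congr fun l => ?_
    rw [add_comm l m]
    congr 1
    refine prod_congr rfl fun i hi => ?_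
    obtain ⟨k, hk⟩ := Nat.exists_eq_add_of_le ((mem_range.1 hi).le.trans (Nat.le_add_right m l))
    rw [hk, Nat.add_sub_cancel_left, pow_add, ← mul_assoc, ← mul_pow, mul_inv_cancel₀ hq0, one_pow,
      one_mul]
  · refine mul_eq_zero_of_right _ (prod_eq_zero hn ?_)
    rw [← mul_pow, mul_inv_cancel₀ hq0, one_pow, sub_self]

theorem abs_coef_add_le (r : ℝ) {q : ℝ} (hq : 1 < |q|) (m l : ℕ) :
    |coef r q (m + l)| ≤ |coef r q m| * (|r| / |q| ^ m) ^ l := by
  induction l with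
  | zero => simp
  | succ l ih =>
    rw [← add_assoc, coef_succ, abs_mul, pow_succ, ← mul_assoc]
    refine mul_le_mul ih ?_ (abs_nonneg _) (by positivity)
    rw [abs_div, abs_pow]
    exact div_le_div_of_nonneg_left (abs_nonneg r) (pow_pos (zero_lt_one.trans hq) m)
      (pow_le_pow_right₀ hq.le (Nat.le_add_right m l))

/-- It is not zero, and it is small. -/
theorem bound_diffOp_series (r : ℝ) {q : ℤ} (hq : 2 ≤ |(q : ℝ)|) {m : ℕ}
    (hm : 64 * |r| ≤ |(q : ℝ)| ^ m) :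
    |coef r q m| / 8 ≤
        |∑ j ∈ range (m + 1), ((diffOp q m).coeff j : ℝ) * series r q (((q : ℝ)⁻¹) ^ j)| ∧
      |∑ j ∈ range (m + 1), ((diffOp q m).coeff j : ℝ) * series r q (((q : ℝ)⁻¹) ^ j)| ≤
        8 * |coef r q m| := by
  have hq1 : 1 < |(q : ℝ)| := by linarith
  rw [sum_diffOp_series r hq1]
  set T : ℕ → ℝ := fun l => ∏ i ∈ range m, (((q : ℝ)⁻¹) ^ (l + m - i) - 1)
  have hT : ∀ l, 1 / 4 ≤ |T l| ∧ |T l| ≤ 4 := fun l => by
    simp only [T]
    rw [← prod_range_reflect]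
    refine prod_bounds m fun e he => ?_
    rw [abs_pow, abs_inv]
    refine (pow_le_pow_left₀ (by positivity) ((inv_le_comm₀ (by norm_num) (by linarith)).1
      (by rw [show (1 / 2 : ℝ)⁻¹ = 2 by norm_num]; exact hq)) _).trans
      (pow_le_pow_of_le_one (by norm_num) (by norm_num) (by omega))
  set θ := |r| / |(q : ℝ)| ^ m
  have hθ : θ ≤ 1 / 64 := by
    rw [div_le_iff₀ (by positivity)]
    linarith
  have hθ0 : 0 ≤ θ := by positivity
  have hg := ((hasSum_geometric_of_lt_one hθ0 (by linarith)).mul_left (4 * |coef r q m| * θ))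
  have hb : ∀ l, ‖coef r q (m + (l + 1)) * T (l + 1)‖ ≤ 4 * |coef r q m| * θ * θ ^ l := fun l => by
    rw [Real.norm_eq_abs, abs_mul]
    calc |coef r q (m + (l + 1))| * |T (l + 1)| ≤ |coef r q m| * θ ^ (l + 1) * 4 :=
          mul_le_mul (abs_coef_add_le r hq1 m _) (hT _).2 (abs_nonneg _) (by positivity)
      _ = _ := by ring
  have hs : Summable fun l => coef r q (m + (l + 1)) * T (l + 1) :=
    Summable.of_norm_bounded hg.summable hb
  have htail := tsum_of_norm_bounded hg hb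
  have h1 : 4 * |coef r q m| * θ * (1 - θ)⁻¹ ≤ |coef r q m| / 8 := by
    rw [← div_eq_mul_inv, div_le_iff₀ (by linarith)]
    nlinarith [abs_nonneg (coef r (q : ℝ) m), mul_le_mul_of_nonneg_left hθ
      (abs_nonneg (coef r (q : ℝ) m))]
  rw [tsum_eq_zero_add' hs, add_zero]
  rw [Real.norm_eq_abs] at htail
  obtain ⟨hT1, hT2⟩ := hT 0
  constructor
  · have h := abs_sub_abs_le_abs_sub (coef r q m * T 0)
      (-∑' l, coef r q (m + (l + 1)) * T (l + 1))
    rw [sub_neg_eq_add, abs_neg, abs_mul] at h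
    nlinarith [abs_nonneg (coef r (q : ℝ) m)]
  · refine (abs_add_le _ _).trans ?_
    rw [abs_mul]
    nlinarith [abs_nonneg (coef r (q : ℝ) m)]

/-- **Tschakaloff's theorem.** -/
theorem irrational_series {r : ℚ} (hr : r ≠ 0) {q : ℤ} (hq : 2 ≤ |q|) :
    Irrational (series r q 1) := by
  rintro ⟨a, ha⟩
  have hqR : 2 ≤ |(q : ℝ)| := by exact_mod_cast hq
  have hq1 : 1 < |(q : ℝ)| := by linarith
  have hq0 : (q : ℝ) ≠ 0 := fun h => by rw [h, abs_zero] at hq1; linarith
  have hs0 : (r.den : ℝ) ≠ 0 := by exact_mod_cast r.den_ne_zero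
  have hrn : (r : ℝ) * r.den = r.num := by exact_mod_cast r.mul_den_eq_num
  have hr0 : (r.num : ℝ) ≠ 0 := Int.cast_ne_zero.2 (Rat.num_ne_zero.2 hr)
  have hN : ∀ j, ∃ N : ℤ,
      (N : ℝ) = a.den * (r.num : ℝ) ^ j * series r q (((q : ℝ)⁻¹) ^ j) := fun j => by
    induction j with
    | zero =>
      refine ⟨a.num, ?_⟩
      rw [pow_zero, pow_zero, mul_one, ← ha, mul_comm]
      exact_mod_cast a.mul_den_eq_num.symm
    | succ j ih =>
      obtain ⟨N, hN⟩ := ih
      refine ⟨(N - a.den * r.num ^ j) * q ^ j * r.den, ?_⟩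
      push_cast
      rw [hN, series_eq _ hq1 (((q : ℝ)⁻¹) ^ j), div_eq_mul_inv, ← pow_succ]
      have e : ((q : ℝ)⁻¹) ^ j * (q : ℝ) ^ j = 1 := by
        rw [← mul_pow, inv_mul_cancel₀ hq0, one_pow]
      linear_combination (a.den : ℝ) * (r.num : ℝ) ^ j *
        series r q (((q : ℝ)⁻¹) ^ (j + 1)) * ((r : ℝ) * r.den * e + hrn)
  choose N hN using hN
  have hlim : Tendsto (fun m => 8 * ((a.den : ℝ) * |coef r q m * (r.num : ℝ) ^ m|)) atTop
      (𝓝 0) := by
    simpa using ((((summable_series r hq1 (r.num : ℝ)).tendsto_atTop_zero).abs).const_mul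
      (a.den : ℝ)).const_mul 8
  obtain ⟨m, hsmall, hm⟩ := ((hlim.eventually_lt_const one_pos).and
    ((tendsto_pow_atTop_atTop_of_one_lt hq1).eventually_ge_atTop (64 * |(r : ℝ)|))).exists
  obtain ⟨hlow, hhigh⟩ := bound_diffOp_series (r : ℝ) hqR hm
  set W : ℤ := ∑ j ∈ range (m + 1), (diffOp q m).coeff j * N j * r.num ^ (m - j)
  set S := ∑ j ∈ range (m + 1),
    ((diffOp q m).coeff j : ℝ) * series r q (((q : ℝ)⁻¹) ^ j) with hS
  have hW : (W : ℝ) = a.den * (r.num : ℝ) ^ m * S := by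
    simp only [W, hS, Int.cast_sum, Int.cast_mul, Int.cast_pow, mul_sum, hN]
    refine sum_congr rfl fun j hj => ?_
    rw [← pow_sub_mul_pow (r.num : ℝ) (Nat.le_of_lt_succ (mem_range.1 hj))]
    ring
  have hc : coef (r : ℝ) q m ≠ 0 :=
    div_ne_zero (pow_ne_zero _ (Rat.cast_ne_zero.2 hr)) (pow_ne_zero _ hq0)
  have hS0 : 0 < |S| := lt_of_lt_of_le (by positivity) hlow
  have h1 : (1 : ℝ) ≤ |(W : ℝ)| := by
    have hW0 : W ≠ 0 := fun h => by
      rw [h, Int.cast_zero] at hW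
      exact mul_ne_zero (mul_ne_zero (Nat.cast_ne_zero.2 a.den_ne_zero) (pow_ne_zero _ hr0))
        (abs_pos.1 hS0) hW.symm
    exact_mod_cast Int.one_le_abs hW0
  rw [hW, abs_mul, abs_mul, Nat.abs_cast] at h1
  rw [abs_mul] at hsmall
  nlinarith [mul_le_mul_of_nonneg_left hhigh
    (show 0 ≤ (a.den : ℝ) * |(r.num : ℝ) ^ m| by positivity)]

/-- **Partial theta values.** -/
theorem irrational_theta {r : ℚ} (hr : r ≠ 0) {q : ℤ} (hq : 2 ≤ |q|) :
    Irrational (∑' n : ℕ, (r : ℝ) ^ n / (q : ℝ) ^ n ^ 2) := by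
  have hq0 : q ≠ 0 := fun h => by rw [h, abs_zero] at hq; omega
  have h := irrational_series (r := r / q) (div_ne_zero hr (Int.cast_ne_zero.2 hq0)) (q := q ^ 2)
    (by rw [abs_pow]; nlinarith [abs_nonneg q])
  convert h using 1
  refine tsum_congr fun n => ?_
  simp only [coef, one_pow, mul_one, Rat.cast_div, Rat.cast_intCast, Int.cast_pow]
  rw [← pow_mul, div_pow, div_div, ← pow_add]
  congr 2
  induction n with
  | zero => simp
  | succ n ih => rw [Nat.choose_succ_succ, Nat.choose_one_right, add_sq, ih]; ring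

end FA.Tschakaloff

end
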